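import Fermat.Agent.Corollaries.AKS.Main

/-!
# The theorem of Agrawal, Kayal and Saxena: the size of `r` and the criterion

For `2 ≤ n ≤ 2 ^ l` there is a prime number `r ≤ 24 ^ 4 l ^ 5` which divides `n` or modulo which
the order of `n` is at least `(l + 1) ^ 2`. Together with the main theorem this gives a
deterministic criterion of primality with at most `24 ^ 2 l ^ (7 / 2) + 1` congruences between
polynomials of degree `< r`.
-/

set_option autoImplicit false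

open Finset Polynomial

namespace Fermat.Agent.Cor.AKS

/-- A form of Chebyshev's theorem. -/
theorem theta_ge_third {m : ℕ} (hm : 24 ^ 4 ≤ m) : (m : ℝ) / 3 ≤ Chebyshev.theta m := by
  have h1 := Chebyshev.theta_ge m
  refine le_trans ?_ h1
  have hm0 : (24 : ℝ) ^ 4 ≤ m := by exact_mod_cast hm
  set u : ℝ := √(√(m : ℝ)) with hu
  have hu2 : u ^ 2 = √(m : ℝ) := Real.sq_sqrt (Real.sqrt_nonneg _)
  have hu4 : u ^ 4 = m := by
    calc u ^ 4 = (u ^ 2) ^ 2 := by ring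
      _ = √(m : ℝ) ^ 2 := by rw [hu2]
      _ = m := Real.sq_sqrt (Nat.cast_nonneg m)
  have hu0 : 0 ≤ u := Real.sqrt_nonneg _
  have hu24 : 24 ≤ u := by
    by_contra h
    have : u ^ 4 < 24 ^ 4 := pow_lt_pow_left₀ (not_le.1 h) hu0 (by norm_num)
    linarith
  have hlog : Real.log m ≤ 4 * u := by
    have h2 : Real.log m = 4 * Real.log u := by rw [← hu4, Real.log_pow]; norm_num
    have h3 := Real.log_le_sub_one_of_pos (show 0 < u by linarith)
    linarith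
  have hlog' : Real.log (m + 1) ≤ 1 + 4 * u := by
    have h2 : Real.log (m + 1) ≤ Real.log (2 * m) := Real.log_le_log (by positivity) (by linarith)
    rw [Real.log_mul (by norm_num) (by linarith)] at h2
    have h3 := Real.log_two_lt_d9
    linarith
  have h2 := Real.log_two_gt_d9
  have h5 : 2 * √(m : ℝ) * Real.log m ≤ 8 * u ^ 3 := by
    rw [← hu2]
    calc 2 * u ^ 2 * Real.log m ≤ 2 * u ^ 2 * (4 * u) := by gcongr
      _ = 8 * u ^ 3 := by ring
  have h6 : (m : ℝ) * Real.log 2 ≥ 0.69 * u ^ 4 := by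
    rw [hu4]
    nlinarith
  have h7 : (24 : ℝ) * u ^ 3 ≤ u ^ 4 := by
    calc (24 : ℝ) * u ^ 3 ≤ u * u ^ 3 := by gcongr
      _ = u ^ 4 := by ring
  have h8 : (24 : ℝ) ^ 2 * u ≤ u ^ 3 := by
    calc (24 : ℝ) ^ 2 * u ≤ u ^ 2 * u := by gcongr
      _ = u ^ 3 := by ring
  rw [← hu4] at h6 ⊢
  rw [hu4] at h6 ⊢
  nlinarith

/-- A prime `r ≤ 24 ^ 4 l ^ 5` with `r ∣ n` or `ord_r(n) ≥ (l + 1) ^ 2`. -/
theorem exists_prime_le {n l : ℕ} (hn : 2 ≤ n) (hl : n ≤ 2 ^ l) : ∃ r : ℕ, r.Prime ∧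
    r ≤ 24 ^ 4 * l ^ 5 ∧ (r ∣ n ∨ (l + 1) ^ 2 ≤ orderOf (n : ZMod r)) := by
  by_contra hcon
  push Not at hcon
  have hl1 : 1 ≤ l := by
    rcases Nat.eq_zero_or_pos l with h0 | h0
    · rw [h0, pow_zero] at hl; omega
    · exact h0
  set m := 24 ^ 4 * l ^ 5 with hm
  set T := (l + 1) ^ 2 with hT
  set N := ∏ i ∈ Icc 1 T, (n ^ i - 1) with hN
  have hn1 : ∀ i, 1 ≤ i → 2 ≤ n ^ i := fun i hi => hn.trans (Nat.le_self_pow (by omega) n)
  have hN0 : N ≠ 0 := by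
    rw [hN, prod_ne_zero_iff]
    intro i hi
    have := hn1 i (mem_Icc.1 hi).1
    omega
  have hdvd : primorial m ∣ N := by
    refine Finset.prod_primes_dvd N (fun p hp => (mem_filter.1 hp).2.prime) fun p hp => ?_
    have hpp : p.Prime := (mem_filter.1 hp).2
    have hpm : p ≤ m := by
      have := mem_range.1 (mem_filter.1 hp).1
      omega
    obtain ⟨h1, h2⟩ := hcon p hpp hpm
    have hcop : Nat.Coprime n p := ((Nat.Prime.coprime_iff_not_dvd hpp).2 h1).symm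
    have : NeZero p := ⟨hpp.ne_zero⟩
    have h3 : 0 < orderOf (n : ZMod p) := by
      rw [orderOf_pos_iff, isOfFinOrder_iff_pow_eq_one]
      refine ⟨p.totient, Nat.totient_pos.2 hpp.pos, ?_⟩
      have h4 := (ZMod.natCast_eq_natCast_iff _ _ _).2 (Nat.ModEq.pow_totient hcop)
      push_cast at h4
      exact h4
    have h4 : p ∣ n ^ orderOf (n : ZMod p) - 1 := by
      rw [← ZMod.natCast_eq_zero_iff, Nat.cast_sub (Nat.one_le_pow _ _ (by omega))]
      push_cast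
      rw [pow_orderOf_eq_one, sub_self]
    exact h4.trans (dvd_prod_of_mem (fun i => n ^ i - 1) (mem_Icc.2 ⟨h3, h2.le⟩))
  have hle : primorial m ≤ 2 ^ (l * T ^ 2) := by
    calc primorial m ≤ N := Nat.le_of_dvd (Nat.pos_of_ne_zero hN0) hdvd
      _ ≤ ∏ _i ∈ Icc 1 T, n ^ T := by
        refine prod_le_prod' fun i hi => (Nat.sub_le _ _).trans ?_
        exact Nat.pow_le_pow_right (by omega) (mem_Icc.1 hi).2
      _ = n ^ (T ^ 2) := by
        rw [prod_const, Nat.card_Icc, Nat.add_sub_cancel, ← pow_mul, sq]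
      _ ≤ (2 ^ l) ^ (T ^ 2) := Nat.pow_le_pow_left hl _
      _ = 2 ^ (l * T ^ 2) := by rw [pow_mul]
  have hm24 : 24 ^ 4 ≤ m := by
    rw [hm]
    exact Nat.le_mul_of_pos_right _ (pow_pos hl1 5)
  have h1 := theta_ge_third hm24
  rw [Chebyshev.theta_eq_log_primorial, Nat.floor_natCast] at h1
  have h2 : Real.log (primorial m) ≤ (l * T ^ 2 : ℕ) * Real.log 2 := by
    rw [← Real.log_pow]
    refine Real.log_le_log ?_ (by exact_mod_cast hle)
    exact_mod_cast primorial_pos m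
  have h3 : T ^ 2 ≤ 16 * l ^ 4 := by
    calc T ^ 2 = (l + 1) ^ 4 := by rw [hT]; ring
      _ ≤ (2 * l) ^ 4 := Nat.pow_le_pow_left (by omega) 4
      _ = 16 * l ^ 4 := by ring
  have h4 : l * T ^ 2 ≤ 16 * l ^ 5 := by
    calc l * T ^ 2 ≤ l * (16 * l ^ 4) := Nat.mul_le_mul_left _ h3
      _ = 16 * l ^ 5 := by ring
  have h5 : ((l * T ^ 2 : ℕ) : ℝ) ≤ 16 * (l : ℝ) ^ 5 := by exact_mod_cast h4
  have h6 : (m : ℝ) = 24 ^ 4 * (l : ℝ) ^ 5 := by rw [hm]; push_cast; ring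
  have h7 : (1 : ℝ) ≤ (l : ℝ) ^ 5 := one_le_pow₀ (by exact_mod_cast hl1)
  have h8 := Real.log_two_lt_d9
  have h9 : 0 < Real.log 2 := Real.log_pos (by norm_num)
  rw [h6] at h1
  have h10 : ((l * T ^ 2 : ℕ) : ℝ) * Real.log 2 ≤ 16 * (l : ℝ) ^ 5 * 1 :=
    mul_le_mul h5 (by linarith) h9.le (by positivity)
  linarith

/-- **The criterion of Agrawal, Kayal and Saxena.** -/
theorem prime_iff {n r l : ℕ} (hn : 2 ≤ n) (hl : n ≤ 2 ^ l) (hr : 0 < r)
    (hord : (l + 1) ^ 2 ≤ orderOf (n : ZMod r)) : n.Prime ↔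
      (∀ q, q.Prime → q ∣ n → q ≤ max r (l * Nat.sqrt r) → q = n) ∧
      (∀ b k : ℕ, 2 ≤ k → n ≠ b ^ k) ∧
      ∀ a ≤ l * Nat.sqrt r,
        (X ^ r - 1 : (ZMod n)[X]) ∣ (X + C (a : ZMod n)) ^ n - (X ^ n + C (a : ZMod n)) := by
  constructor
  · intro h
    refine ⟨fun q hq hqn _ => (Nat.prime_dvd_prime_iff_eq hq h).1 hqn, ?_,
      fun a _ => congruence_of_prime h r a⟩
    rintro b k hk rfl
    exact Nat.Prime.not_prime_pow hk h
  · rintro ⟨h1, h2, h3⟩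
    by_cases hq : ∃ q, q.Prime ∧ q ∣ n ∧ q ≤ max r (l * Nat.sqrt r)
    · obtain ⟨q, hq, hqn, hqr⟩ := hq
      exact h1 q hq hqn hqr ▸ hq
    · push Not at hq
      have h4 := isPrimePow_of_congruences hn hl hr hord (fun p hp hpn => by
        have h5 := hq p hp hpn
        rw [max_lt_iff] at h5
        exact ⟨h5.2, fun h6 => absurd (Nat.le_of_dvd hr h6) (not_le.2 h5.1)⟩) h3
      obtain ⟨p, k, hp, hk, hpk⟩ := (isPrimePow_nat_iff n).1 h4
      rcases Nat.lt_or_ge k 2 with hk2 | hk2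
      · have : k = 1 := by omega
        rw [← hpk, this, pow_one]
        exact hp
      · exact absurd hpk.symm (h2 p k hk2)

/-- **PRIMES is in P**: for `2 ≤ n ≤ 2 ^ l` there is a prime number `r ≤ 24 ^ 4 l ^ 5` such that
`r ∣ n`, or `n` is prime if and only if it has no prime factor `≤ max r (l √r)` except possibly
itself, is not a perfect power and satisfies the `l √r + 1` congruences. -/
theorem exists_prime_iff {n l : ℕ} (hn : 2 ≤ n) (hl : n ≤ 2 ^ l) : ∃ r : ℕ, r.Prime ∧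
    r ≤ 24 ^ 4 * l ^ 5 ∧ (r ∣ n ∨ (n.Prime ↔
      (∀ q, q.Prime → q ∣ n → q ≤ max r (l * Nat.sqrt r) → q = n) ∧
      (∀ b k : ℕ, 2 ≤ k → n ≠ b ^ k) ∧
      ∀ a ≤ l * Nat.sqrt r,
        (X ^ r - 1 : (ZMod n)[X]) ∣ (X + C (a : ZMod n)) ^ n - (X ^ n + C (a : ZMod n)))) := by
  obtain ⟨r, hr, hrl, h⟩ := exists_prime_le hn hl
  exact ⟨r, hr, hrl, h.imp id fun h => prime_iff hn hl hr.pos h⟩

end Fermat.Agent.Cor.AKS
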