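import Mathlib

/-!
# The theorem of Agrawal, Kayal and Saxena

Let `n ≤ 2 ^ l`, `r` prime to `n`, the order of `n` modulo `r` at least `(l + 1) ^ 2`, every prime
factor of `n` greater than `l √r + 1`. If `(X + a) ^ n = X ^ n + a` modulo `X ^ r - 1` and `n` for
all `a ≤ l √r`, then `n` is a power of a prime.
-/

set_option autoImplicit false

open Finset Polynomial

namespace Fermat.Agent.Cor.AKS

section Field

variable {K : Type*} [Field K]

/-- `∏_{a ∈ S} (X + a)` -/
noncomputable def F (K : Type*) [Field K] (S : Finset ℕ) : K[X] := ∏ a ∈ S, (X + C (a : K))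

theorem eval_F (S : Finset ℕ) (x : K) : (F K S).eval x = ∏ a ∈ S, (x + a) := by
  simp [F, eval_prod]

theorem natDegree_F (S : Finset ℕ) : (F K S).natDegree = #S := by
  rw [F, natDegree_prod_of_monic _ _ fun a _ => monic_X_add_C _,
    sum_congr rfl fun a _ => natDegree_X_add_C _, sum_const, smul_eq_mul, mul_one]

theorem monic_F (S : Finset ℕ) : (F K S).Monic := monic_prod_of_monic _ _ fun _ _ => monic_X_add_C _

theorem F_inj {p : ℕ} [CharP K p] {L : ℕ} (hL : L ≤ p) {S S' : Finset ℕ} (hS : S ⊆ range L)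
    (hS' : S' ⊆ range L) (h : F K S = F K S') : S = S' := by
  have key : ∀ T ⊆ range L, ∀ a < L, a ∈ T ↔ (F K T).eval (-(a : K)) = 0 := by
    intro T hT a ha
    rw [eval_F, prod_eq_zero_iff]
    constructor
    · intro h
      exact ⟨a, h, by ring⟩
    · rintro ⟨b, hb, hab⟩
      have h1 : (b : K) = a := by linear_combination hab
      have h2 : b = a := CharP.natCast_injOn_Iio K p
        (Set.mem_Iio.2 ((mem_range.1 (hT hb)).trans_le hL)) (Set.mem_Iio.2 (ha.trans_le hL)) h1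
      exact h2 ▸ hb
  ext a
  by_cases ha : a < L
  · rw [key S hS a ha, key S' hS' a ha, h]
  · exact ⟨fun h' => absurd (mem_range.1 (hS h')) ha, fun h' => absurd (mem_range.1 (hS' h')) ha⟩

/-- `m` is introspective for the `X + a`, `a < L` -/
def Intro (K : Type*) [Field K] (r L m : ℕ) : Prop :=
  ∀ ξ : K, ξ ^ r = 1 → ∀ a < L, (ξ + (a : K)) ^ m = ξ ^ m + a

theorem Intro.mul {r L m m' : ℕ} (h : Intro K r L m) (h' : Intro K r L m') :
    Intro K r L (m * m') := by
  intro ξ hξ a ha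
  rw [pow_mul, h ξ hξ a ha, h' (ξ ^ m) (by rw [← pow_mul, mul_comm, pow_mul, hξ, one_pow]) a ha,
    pow_mul]

theorem Intro.one (r L : ℕ) : Intro K r L 1 := by
  intro ξ _ a _
  rw [pow_one, pow_one]

theorem Intro.pow {r L m : ℕ} (h : Intro K r L m) (i : ℕ) : Intro K r L (m ^ i) := by
  induction i with
  | zero => rw [pow_zero]; exact Intro.one r L
  | succ i ih => rw [pow_succ]; exact ih.mul h

theorem Intro.char {p : ℕ} [Fact p.Prime] [CharP K p] (r L : ℕ) : Intro K r L p := by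
  intro ξ _ a _
  rw [add_pow_char]
  congr 1
  exact map_natCast (frobenius K p) a

theorem Intro.div {p : ℕ} [hp : Fact p.Prime] [CharP K p] {r L n : ℕ} (hpn : p ∣ n)
    (h : Intro K r L n) : Intro K r L (n / p) := by
  intro ξ hξ a ha
  apply frobenius_inj K p
  rw [frobenius_def, frobenius_def, ← pow_mul, Nat.div_mul_cancel hpn, h ξ hξ a ha, add_pow_char,
    ← pow_mul, Nat.div_mul_cancel hpn]
  congr 1
  exact (map_natCast (frobenius K p) a).symm

theorem Intro.eval {r L m : ℕ} (h : Intro K r L m) {S : Finset ℕ} (hS : S ⊆ range L) {ξ : K}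
    (hξ : ξ ^ r = 1) : (F K S).eval ξ ^ m = (F K S).eval (ξ ^ m) := by
  rw [eval_F, eval_F, ← prod_pow]
  exact prod_congr rfl fun a ha => h ξ hξ a (mem_range.1 (hS ha))

/-- The main argument. -/
theorem exists_not_prime_dvd {p : ℕ} [hp : Fact p.Prime] [CharP K p] {r n l : ℕ} (hn : 2 ≤ n)
    (hl : n ≤ 2 ^ l) (hr : 0 < r) (hpn : p ∣ n) {ζ : K} (hζ : IsPrimitiveRoot ζ r)
    (hord : (l + 1) ^ 2 ≤ orderOf (n : ZMod r)) (hpL : l * Nat.sqrt r + 1 ≤ p)
    (h : Intro K r (l * Nat.sqrt r + 1) n) : ¬ ∃ q, q.Prime ∧ q ≠ p ∧ q ∣ n := by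
  classical
  rintro ⟨q, hq, hqp, hqn⟩
  set L := l * Nat.sqrt r + 1 with hL
  set n' := n / p with hn'
  have hnn' : n' * p = n := Nat.div_mul_cancel hpn
  have hl1 : 1 ≤ l := by
    rcases Nat.eq_zero_or_pos l with h0 | h0
    · rw [h0, pow_zero] at hl; omega
    · exact h0
  have hI : ∀ i j : ℕ, Intro K r L (n' ^ i * p ^ j) := fun i j =>
    ((h.div hpn).pow i).mul ((Intro.char r L).pow j)
  have hζr : ζ ^ r = 1 := hζ.pow_eq_one
  -- the conjugates
  set R : Finset K := {x ∈ (range r).image (fun k => ζ ^ k) | ∃ i j : ℕ, x = ζ ^ (n' ^ i * p ^ j)}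
    with hR
  have hmemR : ∀ i j : ℕ, ζ ^ (n' ^ i * p ^ j) ∈ R := by
    intro i j
    rw [hR, mem_filter, mem_image]
    refine ⟨⟨(n' ^ i * p ^ j) % r, mem_range.2 (Nat.mod_lt _ hr), ?_⟩, i, j, rfl⟩
    exact (pow_eq_pow_mod _ hζr).symm
  have hRle : #R ≤ r := (card_filter_le _ _).trans (card_image_le.trans (card_range r).le)
  have hmod : ∀ i j : ℕ, ζ ^ i = ζ ^ j → i % r = j % r := by
    intro i j hij
    refine hζ.pow_inj (Nat.mod_lt _ hr) (Nat.mod_lt _ hr) ?_
    rw [← pow_eq_pow_mod _ hζr, ← pow_eq_pow_mod _ hζr, hij]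
  have hTt : orderOf (n : ZMod r) ≤ #R := by
    rw [← card_range (orderOf (n : ZMod r))]
    refine card_le_card_of_injOn (fun k => ζ ^ (n ^ k)) (fun k _ => ?_) ?_
    · have h1 := hmemR k k
      rwa [← mul_pow, hnn'] at h1
    · intro k hk k' hk' hkk'
      have h1 := hmod _ _ hkk'
      have h2 : ((n ^ k : ℕ) : ZMod r) = ((n ^ k' : ℕ) : ZMod r) :=
        (ZMod.natCast_eq_natCast_iff' _ _ _).2 h1
      push_cast at h2
      refine pow_injOn_Iio_orderOf ?_ ?_ h2
      · simpa using hk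
      · simpa using hk'
  set t := #R with ht
  set s := Nat.sqrt t with hs
  have hs1 : l + 1 ≤ s := Nat.le_sqrt'.2 (hord.trans hTt)
  have hs2 : s ^ 2 ≤ t := Nat.sqrt_le' t
  have hs3 : t < (s + 1) ^ 2 := Nat.lt_succ_sqrt' t
  have hsr : s ≤ Nat.sqrt r := Nat.sqrt_le_sqrt hRle
  set L' := l * s + 1 with hL'
  have hL'L : L' ≤ L := Nat.succ_le_succ (Nat.mul_le_mul_left _ hsr)
  have hL't : L' < t := by nlinarith
  -- the products
  set V : Finset K := (range L').powerset.image (fun S => (F K S).eval ζ) with hV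
  have hcardV : #V = 2 ^ L' := by
    rw [hV, card_image_of_injOn, card_powerset, card_range]
    intro S hS S' hS' hSS'
    have hS1 : S ⊆ range L' := mem_powerset.1 (mem_coe.1 hS)
    have hS1' : S' ⊆ range L' := mem_powerset.1 (mem_coe.1 hS')
    have hLL : range L' ⊆ range L := range_subset_range.2 hL'L
    have hdeg : ∀ T : Finset ℕ, T ⊆ range L' → (F K T).degree < #R := by
      intro T hT
      rw [degree_eq_natDegree (monic_F T).ne_zero, natDegree_F, Nat.cast_lt]
      have := card_le_card hT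
      rw [card_range] at this
      omega
    have hF : F K S = F K S' := by
      refine eq_of_degrees_lt_of_eval_finset_eq R (hdeg S hS1) (hdeg S' hS1') fun x hx => ?_
      rw [hR, mem_filter] at hx
      obtain ⟨i, j, rfl⟩ := hx.2
      rw [← (hI i j).eval (hS1.trans hLL) hζr, ← (hI i j).eval (hS1'.trans hLL) hζr]
      exact congrArg (· ^ (n' ^ i * p ^ j)) hSS'
    exact F_inj (hL'L.trans hpL) hS1 hS1' hF
  -- the pigeonhole principle
  obtain ⟨⟨i, j⟩, hij, ⟨i', j'⟩, hij', hne, heq⟩ := exists_ne_map_eq_of_card_lt_of_maps_to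
    (s := range (s + 1) ×ˢ range (s + 1)) (t := R) (by
      rw [card_product, card_range]
      nlinarith) (f := fun x => ζ ^ (n' ^ x.1 * p ^ x.2)) (fun x _ => hmemR x.1 x.2)
  simp only at heq
  rw [mem_product, mem_range, mem_range] at hij hij'
  have hn'0 : n' ≠ 0 := by
    rintro h0
    rw [h0, zero_mul] at hnn'
    omega
  have hqn' : q ∣ n' := by
    rw [← hnn'] at hqn
    rcases hq.dvd_mul.1 hqn with h1 | h1
    · exact h1
    · exact absurd ((Nat.prime_dvd_prime_iff_eq hq hp.out).1 h1) hqp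
  have hm : n' ^ i * p ^ j ≠ n' ^ i' * p ^ j' := by
    intro hm
    have hv : ∀ i j : ℕ, (n' ^ i * p ^ j).factorization q = i * n'.factorization q := by
      intro i j
      rw [Nat.factorization_mul (pow_ne_zero _ hn'0) (pow_ne_zero _ hp.out.ne_zero),
        Nat.factorization_pow, Nat.factorization_pow, Finsupp.add_apply, Finsupp.smul_apply,
        Finsupp.smul_apply, hp.out.factorization, Finsupp.single_apply, if_neg hqp.symm]
      simp
    have h1 : i * n'.factorization q = i' * n'.factorization q := by rw [← hv i j, ← hv i' j', hm]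
    have h2 : 0 < n'.factorization q := hq.factorization_pos_of_dvd hn'0 hqn'
    have h3 : i = i' := Nat.eq_of_mul_eq_mul_right h2 h1
    subst h3
    have h4 : p ^ j = p ^ j' := Nat.eq_of_mul_eq_mul_left (pow_pos (Nat.pos_of_ne_zero hn'0) _) hm
    have h5 : j = j' := Nat.pow_right_injective hp.out.two_le h4
    exact hne (by rw [h5])
  have hle : ∀ i j : ℕ, i < s + 1 → j < s + 1 → n' ^ i * p ^ j ≤ n ^ s := by
    intro i j hi hj
    rw [← hnn', mul_pow]
    exact Nat.mul_le_mul (Nat.pow_le_pow_right (Nat.pos_of_ne_zero hn'0) (by omega))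
      (Nat.pow_le_pow_right hp.out.pos (by omega))
  set P : K[X] := X ^ (n' ^ i * p ^ j) - X ^ (n' ^ i' * p ^ j') with hP
  have hP0 : P ≠ 0 := by
    intro h0
    have h1 := congrArg natDegree (sub_eq_zero.1 h0)
    rw [natDegree_X_pow, natDegree_X_pow] at h1
    exact hm h1
  have hroot : ∀ x ∈ V, P.eval x = 0 := by
    intro x hx
    rw [hV, mem_image] at hx
    obtain ⟨S, hS, rfl⟩ := hx
    rw [mem_powerset] at hS
    have hS1 : S ⊆ range L := hS.trans (range_subset_range.2 hL'L)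
    rw [hP, eval_sub, eval_pow, eval_pow, eval_X, (hI i j).eval hS1 hζr, (hI i' j').eval hS1 hζr,
      heq, sub_self]
  have hdeg : P.natDegree ≤ n ^ s := by
    refine (natDegree_sub_le _ _).trans ?_
    rw [natDegree_X_pow, natDegree_X_pow]
    exact max_le (hle i j hij.1 hij.2) (hle i' j' hij'.1 hij'.2)
  refine hP0 (eq_zero_of_natDegree_lt_card_of_eval_eq_zero' P V hroot (hdeg.trans_lt ?_))
  calc n ^ s ≤ (2 ^ l) ^ s := Nat.pow_le_pow_left hl s
    _ = 2 ^ (l * s) := by rw [pow_mul]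
    _ < 2 ^ L' := Nat.pow_lt_pow_right (by norm_num) (Nat.lt_succ_self _)
    _ = #V := hcardV.symm

end Field

/-- **The theorem of Agrawal, Kayal and Saxena** (2002). -/
theorem isPrimePow_of_congruences {n r l : ℕ} (hn : 2 ≤ n) (hl : n ≤ 2 ^ l) (hr : 0 < r)
    (hord : (l + 1) ^ 2 ≤ orderOf (n : ZMod r))
    (hsmall : ∀ p, p.Prime → p ∣ n → l * Nat.sqrt r + 1 ≤ p ∧ ¬ p ∣ r)
    (h : ∀ a : ℕ, a ≤ l * Nat.sqrt r →
      (X ^ r - 1 : (ZMod n)[X]) ∣ (X + C (a : ZMod n)) ^ n - (X ^ n + C (a : ZMod n))) :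
    IsPrimePow n := by
  classical
  obtain ⟨p, hp, hpn⟩ := Nat.exists_prime_and_dvd (show n ≠ 1 by omega)
  have : Fact p.Prime := ⟨hp⟩
  let K := AlgebraicClosure (ZMod p)
  have : CharP K p := inferInstance
  have hr0 : ((r : ℕ) : K) ≠ 0 := fun h0 => (hsmall p hp hpn).2 ((CharP.cast_eq_zero_iff K p r).1 h0)
  have : NeZero ((r : ℕ) : K) := ⟨hr0⟩
  obtain ⟨ζ, hζ⟩ : ∃ ζ : K, IsPrimitiveRoot ζ r := by
    obtain ⟨ζ, hζ⟩ := IsAlgClosed.exists_root (cyclotomic r K) (by
      rw [degree_cyclotomic]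
      exact_mod_cast (Nat.totient_pos.2 hr).ne')
    exact ⟨ζ, isRoot_cyclotomic_iff.1 hζ⟩
  have hI : Intro K r (l * Nat.sqrt r + 1) n := by
    intro ξ hξ a ha
    obtain ⟨g, hg⟩ := h a (by omega)
    have h1 := congrArg (eval₂ (ZMod.castHom hpn K) ξ) hg
    rw [eval₂_mul, eval₂_sub, eval₂_sub, eval₂_add, eval₂_pow, eval₂_pow, eval₂_pow, eval₂_add,
      eval₂_X, eval₂_C, eval₂_one, hξ, sub_self, zero_mul, map_natCast, sub_eq_zero] at h1
    exact h1
  have h1 := exists_not_prime_dvd hn hl hr hpn hζ hord (hsmall p hp hpn).1 hI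
  rw [isPrimePow_iff_unique_prime_dvd]
  refine ⟨p, ⟨hp, hpn⟩, ?_⟩
  rintro q ⟨hq, hqn⟩
  by_contra hne
  exact h1 ⟨q, hq, hne, hqn⟩

/-- Conversely the congruences hold for a prime number. -/
theorem congruence_of_prime {n : ℕ} (hn : n.Prime) (r a : ℕ) :
    (X ^ r - 1 : (ZMod n)[X]) ∣ (X + C (a : ZMod n)) ^ n - (X ^ n + C (a : ZMod n)) := by
  have : Fact n.Prime := ⟨hn⟩
  have h1 : (X + C (a : ZMod n)) ^ n = X ^ n + C (a : ZMod n) := by
    rw [add_pow_char, ← C_pow, ZMod.pow_card]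
  rw [h1, sub_self]
  exact dvd_zero _

end Fermat.Agent.Cor.AKS
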